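/-
S29lib, block Z (lead): the assembly.  `CoreStatement` from
* `CompStatement`  (blocks K1/K2/K3/H/D/P: for every level `N` and prime `p` a `ComparisonData N p`
  for which every normalized eigenform has an `EigenInput`),
* `EStatement`     (block E: comparison data + eigen input + local data give a residual piece
  over `ℤ̄ ⧸ 𝔪` for every maximal ideal `𝔪 ∋ p`),
* block GH (`GH.localData_of_comparisonData`) and block X (`X.hasAttachedResidual_of_residualPiece`).
-/
import Fermat.Agent.S29lib.Z.S29Core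
import Fermat.Agent.S29lib.GH.LocalData
import Fermat.Agent.S29lib.X.Main

set_option autoImplicit false

noncomputable section

namespace Fermat.Agent.S29lib.Z

open ModularCurve Polynomial Fermat.Agent.S29lib

/-- `ℤ̄` -/
local notation "Zb" => integralClosure ℤ ℂ

/-- what the blocks K1/K2/K3/H/D (comparison) and P (eigen input) deliver together -/
def CompStatement : Prop :=
  ∀ (N : ℕ) [NeZero N] (p : ℕ), p.Prime →
    ∃ C : ComparisonData N p, ∀ g : CuspForm (CongruenceSubgroup.Gamma0 N) 2,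
      g.IsNormalizedEigenform → Nonempty (EigenInput C g)

/-- what block E delivers -/
def EStatement : Prop :=
  ∀ (N : ℕ) [NeZero N] (p : ℕ), p.Prime → ∀ (C : ComparisonData N p)
    (g : CuspForm (CongruenceSubgroup.Gamma0 N) 2) (I : EigenInput C g), LocalData N p →
    ∀ (𝔪 : Ideal Zb) [𝔪.IsMaximal], (p : Zb) ∈ 𝔪 →
      Nonempty (ResidualPiece N p (Zb ⧸ 𝔪) (fun ℓ => Ideal.Quotient.mk 𝔪 (I.a ℓ)))

/-- the comparison statement at a single prime `p` -/
def CompAt (p : ℕ) : Prop :=
  ∀ (N : ℕ) [NeZero N], ∃ C : ComparisonData N p,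
    ∀ g : CuspForm (CongruenceSubgroup.Gamma0 N) 2,
      g.IsNormalizedEigenform → Nonempty (EigenInput C g)

theorem compStatement_iff : CompStatement ↔ ∀ p : ℕ, p.Prime → CompAt p :=
  ⟨fun H p hp N _ => H N p hp, fun H N _ p hp => H p hp N⟩

theorem coreAt_of_blocks {p : ℕ} (hp : p.Prime) (hC : CompAt p) (hE : EStatement) :
    CoreAt p := by
  intro N _ g hg 𝔪 _ hpm
  obtain ⟨C, hCg⟩ := hC N
  obtain ⟨I⟩ := hCg g hg
  have hL : LocalData N p := GH.localData_of_comparisonData C hp.ne_zero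
  obtain ⟨R⟩ := hE N p hp C g I hL 𝔪 hpm
  haveI : Fact p.Prime := ⟨hp⟩
  haveI : CharP (Zb ⧸ 𝔪) p := charP_quot 𝔪 p hp hpm
  exact ⟨I.a, I.a_eq, X.hasAttachedResidual_of_residualPiece R⟩

theorem core_of_blocks (hC : CompStatement) (hE : EStatement) : CoreStatement := by
  intro N _ g hg p hp 𝔪 _ hpm
  obtain ⟨C, hCg⟩ := hC N p hp
  obtain ⟨I⟩ := hCg g hg
  have hL : LocalData N p := GH.localData_of_comparisonData C hp.ne_zero
  obtain ⟨R⟩ := hE N p hp C g I hL 𝔪 hpm
  haveI : Fact p.Prime := ⟨hp⟩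
  haveI : CharP (Zb ⧸ 𝔪) p := charP_quot 𝔪 p hp hpm
  exact ⟨I.a, I.a_eq, X.hasAttachedResidual_of_residualPiece R⟩

end Fermat.Agent.S29lib.Z
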