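/-
S29lib, block Z (lead): the core statement, unconditionally — all blocks plugged in.
* comparison + eigen input: `D.compStatement_of_heckeNorm` (blocks K1/K2/K3/D/P) with the Hecke leg
  `H.heckeNormInput` (block H/H2);
* residual piece: `E.eStatement` (block E); local data (GH) and exact characteristic polynomials (X)
  are plugged in inside `Z.core_of_blocks`.
-/
import Fermat.Agent.S29lib.Z.Assemble
import Fermat.Agent.S29lib.D.AsmFinal
import Fermat.Agent.S29lib.H.HeckeNormInput
import Fermat.Agent.S29lib.E.Main

set_option autoImplicit false

noncomputable section

namespace Fermat.Agent.S29lib.Z

open Fermat.Agent.S29lib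

/-- the Kummer comparison with Hecke action, and the eigen input, for all levels and primes -/
theorem compStatement : CompStatement :=
  letI : Algebra (AlgebraicClosure ℚ) ℂ := D.algebraQbC
  D.compStatement_of_heckeNorm (fun N _ n _ => H.heckeNormInput N n)

/-- **the core statement**: residual Galois representations attached to eigenforms -/
theorem coreStatement : CoreStatement :=
  core_of_blocks compStatement E.eStatement

end Fermat.Agent.S29lib.Z
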