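/-
S29lib, block Z (lead): S29 from the core statement `CoreStatement` (delivered by the other
blocks: for every level `N ≥ 1`, eigenform `g`, prime `p` and maximal ideal `𝔪 ∋ p` of `ℤ̄` a
residual Galois representation over `ℤ̄ ⧸ 𝔪` with the exact Frobenius characteristic polynomials).
-/
import Fermat.Agent.S29lib.Interface.Basic
import Fermat.Agent.S29lib.Interface.ZbarQuot

set_option autoImplicit false

noncomputable section

namespace Fermat.Agent.S29lib.Z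

open ModularCurve Polynomial Fermat.Agent.S29lib

/-- `ℤ̄` -/
local notation "Zb" => integralClosure ℤ ℂ
/-- `ℚ̄` -/
local notation "Qb" => AlgebraicClosure ℚ

/-- what the blocks K/H/D/GH/P/E/X deliver together -/
def CoreStatement : Prop :=
  ∀ (N : ℕ) [NeZero N] (g : CuspForm (CongruenceSubgroup.Gamma0 N) 2), g.IsNormalizedEigenform →
    ∀ p : ℕ, p.Prime → ∀ (𝔪 : Ideal Zb) [𝔪.IsMaximal], (p : Zb) ∈ 𝔪 →
      ∃ a : Nat.Primes → Zb, (∀ ℓ : Nat.Primes, ((a ℓ : Zb) : ℂ) = ModularFormClass.qCoeff g ℓ) ∧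
        HasAttachedResidual N p (Zb ⧸ 𝔪) (fun ℓ => Ideal.Quotient.mk 𝔪 (a ℓ))

/-- the core statement at a single prime `p` (enough for S42, where `p ≥ 5`) -/
def CoreAt (p : ℕ) : Prop :=
  ∀ (N : ℕ) [NeZero N] (g : CuspForm (CongruenceSubgroup.Gamma0 N) 2), g.IsNormalizedEigenform →
    ∀ (𝔪 : Ideal Zb) [𝔪.IsMaximal], (p : Zb) ∈ 𝔪 →
      ∃ a : Nat.Primes → Zb, (∀ ℓ : Nat.Primes, ((a ℓ : Zb) : ℂ) = ModularFormClass.qCoeff g ℓ) ∧
        HasAttachedResidual N p (Zb ⧸ 𝔪) (fun ℓ => Ideal.Quotient.mk 𝔪 (a ℓ))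

theorem coreStatement_iff : CoreStatement ↔ ∀ p : ℕ, p.Prime → CoreAt p :=
  ⟨fun H p hp N _ g hg 𝔪 _ hpm => H N g hg p hp 𝔪 hpm,
    fun H N _ g hg p hp 𝔪 _ hpm => H p hp N g hg 𝔪 hpm⟩

/-- the trivial 2-dimensional representation -/
def trivialRep (k : Type) [Field k] : ResidualGaloisRep k where
  V := Fin 2 → k
  finrank_eq := by simp
  ρ := 1
  factorsThroughFiniteLevel := ⟨⊥, inferInstance, fun _ _ => rfl⟩

theorem S29_of_core (H : CoreStatement)
    {N : ℕ} {g : CuspForm (CongruenceSubgroup.Gamma0 N) 2} (hg : g.IsNormalizedEigenform)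
    {p : ℕ} (hp : p.Prime) {k : Type} [Field k] [CharP k p]
    (φ : integralClosure ℤ ℂ →+* k) :
    ∃ ρ : ResidualGaloisRep k, ρ.IsAttachedTo g φ ∧
      ∀ ℓ : ℕ, ℓ.Prime → ¬ ℓ ∣ N * p → ρ.IsUnramifiedAt ℓ := by
  rcases Nat.eq_zero_or_pos N with hN0 | hNpos
  · -- level 0: both clauses are vacuous
    subst hN0
    refine ⟨trivialRep k, ?_, ?_⟩
    · intro ℓ _ hℓ0
      exact absurd (dvd_zero ℓ) hℓ0
    · intro ℓ _ hℓ0
      rw [zero_mul] at hℓ0
      exact absurd (dvd_zero ℓ) hℓ0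
  · haveI : NeZero N := ⟨hNpos.ne'⟩
    haveI hmax : (RingHom.ker φ).IsMaximal := ker_isMaximal_of_charP p hp φ
    obtain ⟨a, ha, ρ₀, hunr, hchar⟩ := H N g hg p hp (RingHom.ker φ) (natCast_mem_ker p φ)
    -- the embedding of the residue field in `k`
    let ι : (Zb ⧸ RingHom.ker φ) →+* k := RingHom.kerLift φ
    have hι : ∀ x : Zb, ι (Ideal.Quotient.mk (RingHom.ker φ) x) = φ x := fun x =>
      RingHom.kerLift_mk φ x
    refine ⟨ρ₀.baseChangeAlong ι, ?_, ?_⟩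
    · intro ℓ hℓ hℓN hℓk A hA σ hσ
      have hℓp : ℓ ≠ p := by
        rintro rfl
        exact hℓk (CharP.cast_eq_zero k ℓ)
      have hℓNp : ¬ ℓ ∣ N * p := by
        intro h
        rcases (Nat.Prime.dvd_mul hℓ).mp h with h1 | h1
        · exact hℓN h1
        · exact hℓp ((Nat.prime_dvd_prime_iff_eq hℓ hp).mp h1)
      refine ⟨a ⟨ℓ, hℓ⟩, ha ⟨ℓ, hℓ⟩, ?_⟩
      have h := hchar ℓ hℓ hℓNp A hA σ hσ
      letI : Algebra (Zb ⧸ RingHom.ker φ) k := ι.toAlgebra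
      show LinearMap.charpoly ((ρ₀.ρ σ).baseChange k) = _
      rw [LinearMap.charpoly_baseChange, h]
      simp only [Polynomial.map_add, Polynomial.map_sub, Polynomial.map_mul, Polynomial.map_pow,
        Polynomial.map_X, Polynomial.map_C, Polynomial.map_natCast]
      have : algebraMap (Zb ⧸ RingHom.ker φ) k (Ideal.Quotient.mk (RingHom.ker φ) (a ⟨ℓ, hℓ⟩)) =
          φ (a ⟨ℓ, hℓ⟩) := hι _
      rw [this, map_natCast]
    · intro ℓ hℓ hℓNp A hA σ hσ
      letI : Algebra (Zb ⧸ RingHom.ker φ) k := ι.toAlgebra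
      show (ρ₀.ρ σ).baseChange k = 1
      rw [hunr ℓ hℓ hℓNp A hA σ hσ, LinearMap.baseChange_one]

end Fermat.Agent.S29lib.Z
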