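/-
S29lib, block Z (lead): S42 from `CoreStatement` + finite level of the Frey mod-p representation.
-/
import Fermat.Agent.S29lib.Z.S29Core
import Fermat.Prelude.Def_FreyPackage_EigenformResidualAttachment

set_option autoImplicit false

noncomputable section

namespace Fermat.Agent.S29lib.Z

open ModularCurve Polynomial Fermat.Agent.S29lib WeierstrassCurve WeierstrassCurve.Affine.Point

/-- `ℤ̄` -/
local notation "Zb" => integralClosure ℤ ℂ
/-- `ℚ̄` -/
local notation "Qb" => AlgebraicClosure ℚ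
/-- `G_ℚ` -/
local notation "GQ" => (AlgebraicClosure ℚ ≃ₐ[ℚ] AlgebraicClosure ℚ)

/-- trace of an endomorphism of a 2-dimensional space from its characteristic polynomial -/
theorem trace_of_charpoly {K V : Type*} [Field K] [AddCommGroup V] [Module K V]
    [Module.Finite K V] (h2 : Module.finrank K V = 2) (f : V →ₗ[K] V) (a d : K)
    (hf : LinearMap.charpoly f = X ^ 2 - C a * X + C d) : LinearMap.trace K V f = a := by
  classical
  have hcard : Fintype.card (Module.Free.ChooseBasisIndex K V) = 2 := by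
    rw [← Module.finrank_eq_card_chooseBasisIndex, h2]
  haveI : Nonempty (Module.Free.ChooseBasisIndex K V) := by
    rw [← Fintype.card_pos_iff, hcard]; norm_num
  rw [LinearMap.trace_eq_matrix_trace K (Module.Free.chooseBasis K V) f,
    Matrix.trace_eq_neg_charpoly_coeff, hcard]
  have : (LinearMap.toMatrix (Module.Free.chooseBasis K V) (Module.Free.chooseBasis K V) f).charpoly
      = X ^ 2 - C a * X + C d := hf
  rw [this]
  simp [Polynomial.coeff_X, Polynomial.coeff_X_pow]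

/-- determinant of an endomorphism of a 2-dimensional space from its characteristic polynomial -/
theorem det_of_charpoly {K V : Type*} [Field K] [AddCommGroup V] [Module K V]
    [Module.Finite K V] (h2 : Module.finrank K V = 2) (f : V →ₗ[K] V) (a d : K)
    (hf : LinearMap.charpoly f = X ^ 2 - C a * X + C d) : LinearMap.det f = d := by
  rw [LinearMap.det_eq_sign_charpoly_coeff, h2, hf]
  simp [Polynomial.coeff_X, Polynomial.coeff_X_pow]

/-- an element of `G_ℚ` restricting to the identity on a normal intermediate field fixes it -/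
theorem apply_eq_of_mem_ker_restrictNormalHom (F : IntermediateField ℚ Qb) [Normal ℚ F]
    (σ : GQ) (hσ : σ ∈ (AlgEquiv.restrictNormalHom (F := ℚ) (K₁ := Qb) F).ker)
    (x : Qb) (hx : x ∈ F) : σ x = x := by
  have h1 : AlgEquiv.restrictNormalHom (F := ℚ) (K₁ := Qb) F σ = 1 := hσ
  have h2 := AlgEquiv.restrictNormal_commutes σ F ⟨x, hx⟩
  have h3 : σ.restrictNormal F = AlgEquiv.restrictNormalHom (F := ℚ) (K₁ := Qb) F σ := rfl
  rw [h3, h1] at h2
  exact h2.symm

theorem S42_of_coreAt (P : FreyPackage) (H : CoreAt P.p)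
    (Hfrey : GaloisFactorsThroughFiniteLevel
      (galoisRepModuleEnd (S := ℚ) (K := AlgebraicClosure ℚ) P.freyCurve P.p)) :
    ∀ M : ℕ, 0 < M → P.EigenformResidualAttachmentAt M := by
  intro M hM g hg 𝔪 hmax hpm
  haveI : Algebra.IsAlgebraic ℚ Qb := AlgebraicClosure.isAlgebraic ℚ
  haveI : IsAlgClosure ℚ Qb := ⟨inferInstance, inferInstance⟩
  haveI : Normal ℚ Qb := IsAlgClosure.normal ℚ Qb
  haveI : NeZero M := ⟨hM.ne'⟩
  haveI := hmax
  obtain ⟨a, ha, ρ₀, -, hchar⟩ := H M g hg 𝔪 hpm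
  haveI hcharP : CharP (Zb ⧸ 𝔪) P.p := charP_quot 𝔪 P.p P.pp hpm
  -- the two finite levels
  obtain ⟨L₁, hL₁fin, hL₁⟩ := ρ₀.factorsThroughFiniteLevel
  obtain ⟨L₂, hL₂fin, hL₂⟩ := Hfrey
  haveI := hL₁fin
  haveI := hL₂fin
  let F₀ : IntermediateField ℚ Qb := IntermediateField.normalClosure ℚ ↥(L₁ ⊔ L₂) Qb
  have hle : L₁ ⊔ L₂ ≤ F₀ := IntermediateField.le_normalClosure (L₁ ⊔ L₂)
  haveI : FiniteDimensional ℚ ↥(L₁ ⊔ L₂) := IntermediateField.finiteDimensional_sup L₁ L₂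
  haveI : FiniteDimensional ℚ F₀ := normalClosure.is_finiteDimensional ℚ ↥(L₁ ⊔ L₂) Qb
  haveI : Normal ℚ F₀ := normalClosure.normal ℚ ↥(L₁ ⊔ L₂) Qb
  haveI : NumberField F₀ := ⟨⟩
  haveI : IsGalois ℚ F₀ := ⟨⟩
  refine ⟨Zb ⧸ 𝔪, inferInstance, ZMod.algebra (Zb ⧸ 𝔪) P.p, ρ₀.V, inferInstance, inferInstance,
    ρ₀.ρ, Ideal.Quotient.mk 𝔪, F₀, inferInstance, inferInstance, inferInstance, inferInstance,
    inferInstance, ?_, ρ₀.finrank_eq, ?_, ?_, ?_⟩
  · rw [Ideal.mk_ker]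
  · intro σ hσ
    have hfix : ∀ x ∈ F₀, σ x = x := apply_eq_of_mem_ker_restrictNormalHom F₀ σ hσ
    refine ⟨?_, ?_⟩
    · exact hL₂ σ fun x hx => hfix x (hle (le_sup_right (a := L₁) hx))
    · exact hL₁ σ fun x hx => hfix x (hle (le_sup_left (b := L₂) hx))
  · intro ℓ hℓ hℓM hℓp A hA τ hτ
    have hℓMp : ¬ ℓ ∣ M * P.p := by
      intro h
      rcases (Nat.Prime.dvd_mul hℓ).mp h with h1 | h1
      · exact hℓM h1
      · exact hℓp ((Nat.prime_dvd_prime_iff_eq hℓ P.pp).mp h1)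
    refine ⟨a ⟨ℓ, hℓ⟩, ha ⟨ℓ, hℓ⟩, ?_⟩
    exact trace_of_charpoly ρ₀.finrank_eq (ρ₀.ρ τ) _ _ (hchar ℓ hℓ hℓMp A hA τ hτ)
  · intro ℓ hℓ hℓM hℓp A hA τ hτ
    have hℓMp : ¬ ℓ ∣ M * P.p := by
      intro h
      rcases (Nat.Prime.dvd_mul hℓ).mp h with h1 | h1
      · exact hℓM h1
      · exact hℓp ((Nat.prime_dvd_prime_iff_eq hℓ P.pp).mp h1)
    exact det_of_charpoly ρ₀.finrank_eq (ρ₀.ρ τ) _ _ (hchar ℓ hℓ hℓMp A hA τ hτ)

theorem S42_of_core (H : CoreStatement)
    (Hfrey : ∀ P : FreyPackage, GaloisFactorsThroughFiniteLevel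
      (galoisRepModuleEnd (S := ℚ) (K := AlgebraicClosure ℚ) P.freyCurve P.p))
    (P : FreyPackage) : ∀ M : ℕ, 0 < M → P.EigenformResidualAttachmentAt M :=
  S42_of_coreAt P (coreStatement_iff.mp H P.p P.pp) (Hfrey P)

end Fermat.Agent.S29lib.Z
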